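import Fermat.Agent.A2.H48.TwoVal

/-!
# S35 / (G') leaf TORIC:GLUE — abstract part (helper415)

Mathlib + `A2.H48.IsUnif` only.

* `val_map_eq`        : a ring automorphism preserving a discrete valuation ring `V` (with
                        uniformiser `ϖ`) preserves the valuation;
* `val_div_sub_div_lt`: congruences of quotients of units;
* `val_pow_sub_pow_lt`: congruences of powers;
* `norm_comm_of_equiv`: norms commute with a pair of compatible ring isomorphisms;
* `exists_unit_pow_sub_mem`: units are `m`-th powers modulo the maximal ideal when the residue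
                        field is algebraically closed.
-/

set_option autoImplicit false

namespace Fermat.Agent.S35.G.H415

open Fermat.Agent.A2

section Val

variable {F : Type*} [Field F] (V : ValuationSubring F)

theorem val_eq_one_iff {x : F} : V.valuation x = 1 ↔ x ∈ V ∧ x⁻¹ ∈ V ∧ x ≠ 0 := by
  constructor
  · intro h
    refine ⟨(V.valuation_le_one_iff x).1 h.le, ?_, ?_⟩
    · rw [← V.valuation_le_one_iff, map_inv₀, h, inv_one]
    · rintro rfl
      rw [map_zero] at h
      exact zero_ne_one h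
  · rintro ⟨h1, h2, h3⟩
    have h4 : V.valuation x ≤ 1 := (V.valuation_le_one_iff x).2 h1
    have h5 : V.valuation x⁻¹ ≤ 1 := (V.valuation_le_one_iff _).2 h2
    have hne : V.valuation x ≠ 0 := (Valuation.ne_zero_iff _).2 h3
    rw [map_inv₀, inv_le_one₀ (zero_lt_iff.2 hne)] at h5
    exact le_antisymm h4 h5

theorem val_mul_lt {x y : F} (hx : V.valuation x < 1) (hy : V.valuation y ≤ 1) :
    V.valuation (x * y) < 1 := by
  rw [map_mul]
  calc V.valuation x * V.valuation y ≤ V.valuation x * 1 := mul_le_mul' le_rfl hy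
    _ = V.valuation x := mul_one _
    _ < 1 := hx

theorem val_mul_lt' {x y : F} (hx : V.valuation x ≤ 1) (hy : V.valuation y < 1) :
    V.valuation (x * y) < 1 := by
  rw [mul_comm]
  exact val_mul_lt V hy hx

theorem val_trans {x y z : F} (h1 : V.valuation (x - y) < 1) (h2 : V.valuation (y - z) < 1) :
    V.valuation (x - z) < 1 := by
  have : x - z = (x - y) + (y - z) := by ring
  rw [this]
  exact Valuation.map_add_lt _ h1 h2

theorem val_symm {x y : F} (h1 : V.valuation (x - y) < 1) : V.valuation (y - x) < 1 := by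
  rwa [Valuation.map_sub_swap]

theorem val_eq_one_of_sub_lt {x y : F} (hx : V.valuation x = 1) (h : V.valuation (x - y) < 1) :
    V.valuation y = 1 := by
  have h' : V.valuation (y - x) < V.valuation x := by
    rw [hx, Valuation.map_sub_swap]
    exact h
  rw [Valuation.map_eq_of_sub_lt _ h', hx]

/-- Congruence of quotients: `a ≡ a'`, `b ≡ b'`, `b, b'` units, `a' ∈ V` ⟹ `a / b ≡ a' / b'`. -/
theorem val_div_sub_div_lt {a a' b b' : F} (ha : V.valuation (a - a') < 1)
    (hb : V.valuation (b - b') < 1) (ha' : V.valuation a' ≤ 1) (hb1 : V.valuation b = 1)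
    (hb'1 : V.valuation b' = 1) :
    V.valuation (a * b⁻¹ - a' * b'⁻¹) < 1 := by
  have hb0 : b ≠ 0 := ((val_eq_one_iff V).1 hb1).2.2
  have hb'0 : b' ≠ 0 := ((val_eq_one_iff V).1 hb'1).2.2
  have key : a * b⁻¹ - a' * b'⁻¹ = ((a - a') * b' - a' * (b - b')) * (b * b')⁻¹ := by
    field_simp
    ring
  rw [key, map_mul, map_inv₀, map_mul, hb1, hb'1, mul_one, inv_one, mul_one]
  refine Valuation.map_sub_lt _ (val_mul_lt V ha hb'1.le) (val_mul_lt' V ha' hb)

/-- Congruence of powers. -/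
theorem val_pow_sub_pow_lt {x y : F} (hx : V.valuation x ≤ 1) (hy : V.valuation y ≤ 1)
    (h : V.valuation (x - y) < 1) (n : ℕ) : V.valuation (x ^ n - y ^ n) < 1 := by
  induction n with
  | zero => simp
  | succ n ih =>
    have key : x ^ (n + 1) - y ^ (n + 1) = (x ^ n - y ^ n) * x + y ^ n * (x - y) := by ring
    rw [key]
    refine Valuation.map_add_lt _ (val_mul_lt V ih hx) (val_mul_lt' V ?_ h)
    rw [map_pow]
    exact pow_le_one₀ zero_le hy

/-- A ring automorphism (given by a pair of mutually inverse ring homomorphisms) which preserves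
the discrete valuation ring `V` preserves its valuation. -/
theorem val_map_eq {ϖ : F} (hU : H48.IsUnif V ϖ)
    (hdisc : ∀ x ∈ V, x ≠ 0 → ∃ (n : ℕ) (u : F), u ∈ V ∧ u⁻¹ ∈ V ∧ x = ϖ ^ n * u)
    (σ σ' : F →+* F) (h1 : ∀ x, σ' (σ x) = x) (h2 : ∀ x, σ (σ' x) = x)
    (hσ : ∀ x ∈ V, σ x ∈ V) (hσ' : ∀ x ∈ V, σ' x ∈ V) (x : F) :
    V.valuation (σ x) = V.valuation x := by
  -- units
  have hunit : ∀ u : F, u ∈ V → u⁻¹ ∈ V → u ≠ 0 → V.valuation (σ u) = 1 := by
    intro u hu hu' hu0
    rw [val_eq_one_iff]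
    refine ⟨hσ u hu, ?_, ?_⟩
    · rw [← map_inv₀]
      exact hσ _ hu'
    · exact (map_ne_zero σ).2 hu0
  -- the uniformiser
  have hlt : ∀ (τ τ' : F →+* F), (∀ x, τ' (τ x) = x) → (∀ x ∈ V, τ x ∈ V) →
      (∀ x ∈ V, τ' x ∈ V) → V.valuation (τ ϖ) ≤ V.valuation ϖ := by
    intro τ τ' ht hτ hτ'
    apply hU.val_le_of_lt_one
    rcases lt_or_eq_of_le ((V.valuation_le_one_iff _).2 (hτ ϖ hU.mem)) with h | h
    · exact h
    · exfalso
      have h3 : (τ ϖ)⁻¹ ∈ V := ((val_eq_one_iff V).1 h).2.1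
      have h4 := hτ' _ h3
      rw [map_inv₀, ht] at h4
      exact hU.inv_not_mem h4
  have hϖ : V.valuation (σ ϖ) = V.valuation ϖ := by
    refine le_antisymm (hlt σ σ' h1 hσ hσ') ?_
    have h3 := hlt σ' σ h2 hσ' hσ
    -- `σ' ϖ = ϖ r`, `r ∈ V`
    have hr : σ' ϖ * ϖ⁻¹ ∈ V := by
      rw [← V.valuation_le_one_iff, map_mul, map_inv₀,
        mul_inv_le_iff₀ (zero_lt_iff.2 hU.val_ne_zero), one_mul]
      exact h3
    have h5 : ϖ = σ ϖ * σ (σ' ϖ * ϖ⁻¹) := by
      rw [map_mul, map_inv₀, h2]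
      have : σ ϖ ≠ 0 := (map_ne_zero σ).2 hU.ne_zero
      field_simp
    calc V.valuation ϖ = V.valuation (σ ϖ * σ (σ' ϖ * ϖ⁻¹)) := by rw [← h5]
      _ = V.valuation (σ ϖ) * V.valuation (σ (σ' ϖ * ϖ⁻¹)) := map_mul _ _ _
      _ ≤ V.valuation (σ ϖ) * 1 :=
          mul_le_mul' le_rfl ((V.valuation_le_one_iff _).2 (hσ _ hr))
      _ = V.valuation (σ ϖ) := mul_one _
  -- elements of `V`
  have hV : ∀ x ∈ V, x ≠ 0 → V.valuation (σ x) = V.valuation x := by
    intro x hx hx0
    obtain ⟨n, u, hu, hu', rfl⟩ := hdisc x hx hx0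
    have hu0 : u ≠ 0 := by
      rintro rfl
      exact hx0 (mul_zero _)
    rw [map_mul, map_pow, map_mul (V.valuation), map_pow (V.valuation), hϖ, hunit u hu hu' hu0,
      map_mul, map_pow, (val_eq_one_iff V).2 ⟨hu, hu', hu0⟩]
  by_cases hx0 : x = 0
  · subst hx0
    simp
  rcases V.mem_or_inv_mem x with hx | hx
  · exact hV x hx hx0
  · have h3 := hV x⁻¹ hx (inv_ne_zero hx0)
    rw [map_inv₀, map_inv₀, map_inv₀] at h3
    exact inv_injective h3

end Val

section Norm

/-- Norms commute with a compatible pair of ring isomorphisms: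
`α ∘ e₁ = e₂ ∘ β` ⟹ `N_α (e₂ y) = e₁ (N_β y)`. -/
theorem norm_comm_of_equiv {K F : Type*} [Field K] [Field F] (α β : K →+* F)
    (e₁ : K ≃+* K) (e₂ : F ≃+* F) (h : ∀ x, α (e₁ x) = e₂ (β x)) (y : F) :
    @Algebra.norm K F _ _ α.toAlgebra (e₂ y) = e₁ (@Algebra.norm K F _ _ β.toAlgebra y) := by
  have h1 := @Algebra.norm_eq_of_equiv_equiv K F K F _ _ _ _ β.toAlgebra α.toAlgebra e₁ e₂
    (RingHom.ext fun x => h x) y
  rw [h1, RingEquiv.apply_symm_apply]

end Norm

section Root

/-- Over a local ring with algebraically closed residue field every element is an `m`-th power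
modulo the maximal ideal (`m > 0`). -/
theorem exists_pow_sub_mem {R : Type*} [CommRing R] [IsLocalRing R]
    [IsAlgClosed (IsLocalRing.ResidueField R)] {m : ℕ} (hm : 0 < m) (x : R) :
    ∃ d : R, x - d ^ m ∈ IsLocalRing.maximalIdeal R := by
  obtain ⟨z, hz⟩ := IsAlgClosed.exists_pow_nat_eq (IsLocalRing.residue R x) hm
  obtain ⟨d, rfl⟩ := IsLocalRing.residue_surjective z
  refine ⟨d, ?_⟩
  rw [← IsLocalRing.residue_eq_zero_iff, map_sub, map_pow, hz, sub_self]

end Root

end Fermat.Agent.S35.G.H415
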