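import Fermat.Agent.S35.G.H60.ToricSpec
import Fermat.Agent.S35.G.H558.NodeRat
import Fermat.Agent.S35.G.H415.ToricAbs

/-!
# S35 / (G') leaf TORIC:GLUE (helper415)

`glue : H60.GlueStatement A E M q w m`, i.e.
`NormRedStatement → StableStatement → KronFrobStatement → ToricStatement` (all VERBATIM from
`S35/G/H60/ToricSpec.lean`, `S35/G/SpecLevel.lean`).

Proof (board `coord/S35-TORIC-helper60.md` §1), organised symmetrically: `core` proves the
congruence at `V∞` for a pair `(f₁, f₂ = W f₁)` whose norms along `α` are constants times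
`m`-th powers; TORIC is `core` applied to `(f, W f)` and to `(W f, f)`
(`N_α (W f) = W_M (N_β f)`).

Inside `core` (`u_i = ψ f_i / f_i`, units of `V∞` since `σ` preserves the Gauss valuation):
`u_i ≡ α U_i` (L11), `β (σ U_i) ≡ (α U_i)^q` (KRON-FROB), NORM-RED twice:
`N_α u₁ ≡ U₁ · σ W_M U₂`, `N_α u₂ ≡ U₂ · σ W_M U₁`; `N_α u_i ≡ P_i^m` (`N_α ψ = ψ_M N_α`, the residue
field of `R_E` is algebraically closed); hence `ψ_M U₁ / U₁ ≡ (σ W_M P₂ / P₁)^m` and
`ψ u₁ / u₁ ≡ α (ψ_M U₁ / U₁)`.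
-/

set_option autoImplicit false
set_option synthInstance.maxHeartbeats 400000
set_option maxHeartbeats 1600000
set_option linter.unusedSectionVars false
set_option linter.style.haveILetI false

noncomputable section

namespace Fermat.Agent.S35.G.H415

open ModularCurve HahnSeries Polynomial
open Fermat.Agent.A2.Mod

section Level

variable (A : ValuationSubring (AlgebraicClosure ℚ))
  (E : IntermediateField ℚ (AlgebraicClosure ℚ)) (M q : ℕ) [NeZero M] [NeZero q] (w : RE A E)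

theorem psiE_apply (N : ℕ) {s : AlgebraicClosure ℚ ≃ₐ[ℚ] AlgebraicClosure ℚ}
    (hs : StableUnder E s) (x : FE E N) :
    psiE E N s hs x = actE E N (resE E s hs) (actE E N (resE E s hs) x) :=
  H558.actE_mul_apply E N _ _ x

/-- `σ` preserves the Gauss valuation (any level). -/
theorem val_actE (hSt : StableStatement A E) (hS : Setting A E M q w) (N : ℕ) [NeZero N]
    (V : ValuationSubring (FE E N)) (hV : IsVinf A E N V)
    {s : AlgebraicClosure ℚ ≃ₐ[ℚ] AlgebraicClosure ℚ} (hs : StableUnder E s)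
    (hsD : s ∈ A.decompositionSubgroup ℚ) (x : FE E N) :
    V.valuation (actE E N (resE E s hs) x) = V.valuation x := by
  have hN : N ≠ 0 := NeZero.ne N
  have hU : A2.H48.IsUnif V (cE A E N w) := (H553.vinfBasic A E w N hN hS.dvr hS.unif V hV).1
  have hW := H751.isFricke_frickeE E N
  have hσV := (hSt N hN hS.dvr V (H751.frickeE E N) hV hW s hs hsD).2
  have hσV' := (hSt N hN hS.dvr V (H751.frickeE E N) hV hW s⁻¹ (H558.stableUnder_inv E hs)
    (inv_mem hsD)).2
  refine val_map_eq V hU (fun x hx hx0 => H378.disc_V hS N hV hx hx0)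
    ((actE E N (resE E s hs) : FE E N ≃+* FE E N) : FE E N →+* FE E N)
    ((actE E N (resE E s⁻¹ (H558.stableUnder_inv E hs)) : FE E N ≃+* FE E N) :
      FE E N →+* FE E N) ?_ ?_ hσV hσV' x
  · intro g
    exact H558.actE_cancel E N _ _ (fun e => Subtype.ext (s.symm_apply_apply (e : _))) g
  · intro g
    exact H558.actE_cancel E N _ _ (fun e => Subtype.ext (s.apply_symm_apply (e : _))) g

/-- `ψ = σ²` preserves the Gauss valuation. -/
theorem val_psiE (hSt : StableStatement A E) (hS : Setting A E M q w) (N : ℕ) [NeZero N]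
    (V : ValuationSubring (FE E N)) (hV : IsVinf A E N V)
    {s : AlgebraicClosure ℚ ≃ₐ[ℚ] AlgebraicClosure ℚ} (hs : StableUnder E s)
    (hsD : s ∈ A.decompositionSubgroup ℚ) (x : FE E N) :
    V.valuation (psiE E N s hs x) = V.valuation x := by
  rw [psiE_apply, val_actE A E M q w hSt hS N V hV hs hsD,
    val_actE A E M q w hSt hS N V hV hs hsD]

/-- The Fricke involution of level `M` preserves the Gauss valuation. -/
theorem val_frickeM (hS : Setting A E M q w) (VM : ValuationSubring (FE E M))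
    (hVM : IsVinf A E M VM) (x : FE E M) :
    VM.valuation (H751.frickeE E M x) = VM.valuation x := by
  have hU : A2.H48.IsUnif VM (cE A E M w) :=
    (H553.vinfBasic A E w M hS.M_ne_zero hS.dvr hS.unif VM hVM).1
  have hWM := H751.isFricke_frickeE E M
  have hL7 := H900.frickeStable A E M q w hS VM (H751.frickeE E M) hVM hWM
  exact val_map_eq VM hU (fun x hx hx0 => H378.disc_V hS M hVM hx hx0)
    ((H751.frickeE E M : FE E M ≃ₐ[E] FE E M) : FE E M →+* FE E M)
    ((H751.frickeE E M : FE E M ≃ₐ[E] FE E M) : FE E M →+* FE E M)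
    (H751.frickeE_frickeE E M) (H751.frickeE_frickeE E M) hL7 hL7 x

section Alpha

variable {A E M q w}
variable (hS : Setting A E M q w) {VM : ValuationSubring (FE E M)}
  {V : ValuationSubring (FE E (M * q))} (hVM : IsVinf A E M VM) (hV : IsVinf A E (M * q) V)

include hS hVM hV

theorem val_alpha_le (x : FE E M) :
    V.valuation (αE E M q x) ≤ 1 ↔ VM.valuation x ≤ 1 := by
  rw [V.valuation_le_one_iff, VM.valuation_le_one_iff]
  exact H378.alpha_mem_iff hS hVM hV x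

theorem val_alpha_lt (x : FE E M) :
    V.valuation (αE E M q x) < 1 ↔ VM.valuation x < 1 := by
  have hNq : M * q ≠ 0 := Nat.mul_ne_zero hS.M_ne_zero hS.q_prime.ne_zero
  have hU : A2.H48.IsUnif V (cE A E (M * q) w) :=
    (H553.vinfBasic A E w (M * q) hNq hS.dvr hS.unif V hV).1
  have hUM : A2.H48.IsUnif VM (cE A E M w) :=
    (H553.vinfBasic A E w M hS.M_ne_zero hS.dvr hS.unif VM hVM).1
  rw [← hU.mul_inv_mem_iff, ← hUM.mul_inv_mem_iff]
  have h1 : αE E M q x * (cE A E (M * q) w)⁻¹ = αE E M q (x * (cE A E M w)⁻¹) := by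
    rw [map_mul, map_inv₀, H378.alpha_cE]
  rw [h1]
  exact H378.alpha_mem_iff hS hVM hV _

theorem val_alpha_eq_one (x : FE E M) :
    V.valuation (αE E M q x) = 1 ↔ VM.valuation x = 1 := by
  constructor
  · intro h
    rcases lt_or_eq_of_le ((val_alpha_le hS hVM hV x).1 h.le) with h2 | h2
    · exact absurd ((val_alpha_lt hS hVM hV x).2 h2) (by rw [h]; exact lt_irrefl _)
    · exact h2
  · intro h
    rcases lt_or_eq_of_le ((val_alpha_le hS hVM hV x).2 h.le) with h2 | h2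
    · exact absurd ((val_alpha_lt hS hVM hV x).1 h2) (by rw [h]; exact lt_irrefl _)
    · exact h2

end Alpha

/-- Constants in the maximal ideal of `R_E` have valuation `< 1`. -/
theorem val_cE_lt (hS : Setting A E M q w) (N : ℕ) [NeZero N]
    (V : ValuationSubring (FE E N)) (hV : IsVinf A E N V) (e : RE A E)
    (he : e ∈ IsLocalRing.maximalIdeal (RE A E)) : V.valuation (cE A E N e) < 1 := by
  haveI := hS.dvr
  have hU : A2.H48.IsUnif V (cE A E N w) :=
    (H553.vinfBasic A E w N (NeZero.ne N) hS.dvr hS.unif V hV).1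
  rw [hS.unif.maximalIdeal_eq, Ideal.mem_span_singleton] at he
  obtain ⟨e', rfl⟩ := he
  have h1 : cE A E N (w * e') = cE A E N w * cE A E N e' := by
    unfold cE
    rw [← map_mul]
    rfl
  rw [h1]
  exact val_mul_lt V hU.val_lt_one ((V.valuation_le_one_iff _).2 (H378.cE_mem hV e'))


/-! ### Norms -/

theorem normAlong_inv {K F F' : Type*} [Field K] [Field F] [Field F'] [Algebra K F]
    [Algebra K F'] (φ : F →ₐ[K] F') {f : F'} (hf : f ≠ 0) :
    S29.H395.normAlong φ f⁻¹ = (S29.H395.normAlong φ f)⁻¹ := by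
  have h1 : S29.H395.normAlong φ f * S29.H395.normAlong φ f⁻¹ = 1 := by
    rw [← S29.H395.normAlong_mul, mul_inv_cancel₀ hf, S29.H395.normAlong_one]
  exact eq_inv_of_mul_eq_one_right h1

theorem normAlong_ne_zero' {K F F' : Type*} [Field K] [Field F] [Field F'] [Algebra K F]
    [Algebra K F'] (φ : F →ₐ[K] F') {f : F'} (hf : f ≠ 0) :
    S29.H395.normAlong φ f ≠ 0 := by
  intro h0
  have h1 : S29.H395.normAlong φ f * S29.H395.normAlong φ f⁻¹ = 1 := by
    rw [← S29.H395.normAlong_mul, mul_inv_cancel₀ hf, S29.H395.normAlong_one]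
  rw [h0, zero_mul] at h1
  exact zero_ne_one h1

/-- `N_α ∘ ψ = ψ_M ∘ N_α`. -/
theorem normAlong_alpha_psi {s : AlgebraicClosure ℚ ≃ₐ[ℚ] AlgebraicClosure ℚ}
    (hs : StableUnder E s) (y : FE E (M * q)) :
    S29.H395.normAlong (αE E M q) (psiE E (M * q) s hs y)
      = psiE E M s hs (S29.H395.normAlong (αE E M q) y) :=
  norm_comm_of_equiv ((αE E M q : FE E M →ₐ[E] FE E (M * q)) : FE E M →+* FE E (M * q))
    ((αE E M q : FE E M →ₐ[E] FE E (M * q)) : FE E M →+* FE E (M * q))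
    (psiE E M s hs) (psiE E (M * q) s hs)
    (fun x => H558.alpha_actE E M q _ x) y

/-- `N_α (W y) = W_M (N_β y)`. -/
theorem normAlong_alpha_fricke (W : FE E (M * q) ≃ₐ[E] FE E (M * q))
    (hW : IsFricke E (M * q) W) (y : FE E (M * q)) :
    S29.H395.normAlong (αE E M q) (W y)
      = H751.frickeE E M (S29.H395.normAlong (βE E M q) y) :=
  norm_comm_of_equiv ((αE E M q : FE E M →ₐ[E] FE E (M * q)) : FE E M →+* FE E (M * q))
    ((βE E M q : FE E M →ₐ[E] FE E (M * q)) : FE E M →+* FE E (M * q))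
    (H751.frickeE E M : FE E M ≃ₐ[E] FE E M).toRingEquiv W.toRingEquiv
    (fun x => ((H751.frickeCompat E M q (H751.frickeE E M) W
      (H751.isFricke_frickeE E M) hW x).2).symm) y

/-- `NormPow α m (W f)` from `NormPow β m f`. -/
theorem normPow_alpha_fricke {m : ℕ} (W : FE E (M * q) ≃ₐ[E] FE E (M * q))
    (hW : IsFricke E (M * q) W) {f : FE E (M * q)} (h : NormPow (βE E M q) m f) :
    NormPow (αE E M q) m (W f) := by
  obtain ⟨c, g, hcg⟩ := h
  refine ⟨c, H751.frickeE E M g, ?_⟩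
  rw [normAlong_alpha_fricke E M q W hW f, hcg, map_mul, map_pow, AlgEquiv.commutes]

/-- The norm of `ψ f / f` is an `m`-th power modulo `w`. -/
theorem norm_unit (hSt : StableStatement A E) (hS : Setting A E M q w) (hG : A2.GoodField A E)
    {m : ℕ} (hm : 0 < m) (VM : ValuationSubring (FE E M)) (hVM : IsVinf A E M VM)
    {s : AlgebraicClosure ℚ ≃ₐ[ℚ] AlgebraicClosure ℚ} (hs : StableUnder E s)
    (hsD : s ∈ A.decompositionSubgroup ℚ)
    (f : FE E (M * q)) (hf : f ≠ 0) (hN : NormPow (αE E M q) m f) :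
    ∃ P : FE E M, VM.valuation P = 1 ∧
      VM.valuation
        (S29.H395.normAlong (αE E M q) (frobSub (psiE E (M * q) s hs) 1 f) - P ^ m) < 1 := by
  obtain ⟨c, g, hcg⟩ := hN
  have hNf0 := normAlong_ne_zero' (αE E M q) hf
  have hC0 : algebraMap E (FE E M) c ≠ 0 := by
    intro h0
    rw [hcg, h0, zero_mul] at hNf0
    exact hNf0 rfl
  have hg0 : g ≠ 0 := by
    rintro rfl
    rw [hcg, zero_pow hm.ne', mul_zero] at hNf0
    exact hNf0 rfl
  have hc0 : c ≠ 0 := by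
    rintro rfl
    exact hC0 (map_zero _)
  -- the constant
  obtain ⟨t, ht⟩ : ∃ t : E ≃ₐ[ℚ] E, t = resE E s hs * resE E s hs := ⟨_, rfl⟩
  have hψC : psiE E M s hs (algebraMap E (FE E M) c) = algebraMap E (FE E M) (t c) := by
    rw [ht]
    exact arithmeticRingAut_algebraMap (modularFunctionFieldFull M) _ c
  have hvC : VM.valuation (algebraMap E (FE E M) (t c * c⁻¹)) = 1 := by
    rw [map_mul, map_inv₀, ← hψC, map_mul, map_inv₀, val_psiE A E M q w hSt hS M VM hVM hs hsD,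
      mul_inv_cancel₀ ((Valuation.ne_zero_iff _).2 hC0)]
  have hL2 := (H553.vinfBasic A E w M hS.M_ne_zero hS.dvr hS.unif VM hVM).2.1
  have hxR : t c * c⁻¹ ∈ RE A E := (hL2 _).1 ((VM.valuation_le_one_iff _).1 hvC.le)
  haveI := hG.algClosed
  obtain ⟨d, hd⟩ := exists_pow_sub_mem (R := RE A E) hm ⟨t c * c⁻¹, hxR⟩
  have hvd : VM.valuation (algebraMap E (FE E M) (t c * c⁻¹) - cE A E M d ^ m) < 1 := by
    have h1 := val_cE_lt A E M q w hS M VM hVM _ hd
    have h2 : cE A E M (⟨t c * c⁻¹, hxR⟩ - d ^ m)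
        = algebraMap E (FE E M) (t c * c⁻¹) - cE A E M d ^ m := by
      unfold cE
      rw [← map_pow, ← map_sub]
      rfl
    rwa [h2] at h1
  have hvD : VM.valuation (cE A E M d) = 1 := by
    have h1 : VM.valuation (cE A E M d ^ m) = 1 := val_eq_one_of_sub_lt VM hvC hvd
    rcases lt_or_eq_of_le ((VM.valuation_le_one_iff _).2 (H378.cE_mem hVM d)) with h2 | h2
    · exfalso
      rw [map_pow] at h1
      exact absurd h1 (ne_of_lt (pow_lt_one₀ zero_le h2 hm.ne'))
    · exact h2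
  -- the function
  have hvG : VM.valuation (psiE E M s hs g * g⁻¹) = 1 := by
    rw [map_mul, map_inv₀, val_psiE A E M q w hSt hS M VM hVM hs hsD,
      mul_inv_cancel₀ ((Valuation.ne_zero_iff _).2 hg0)]
  refine ⟨cE A E M d * (psiE E M s hs g * g⁻¹), by rw [map_mul, hvD, hvG, one_mul], ?_⟩
  have hNu : S29.H395.normAlong (αE E M q) (frobSub (psiE E (M * q) s hs) 1 f)
      = algebraMap E (FE E M) (t c * c⁻¹) * (psiE E M s hs g * g⁻¹) ^ m := by
    unfold frobSub
    rw [pow_one, S29.H395.normAlong_mul, normAlong_inv (αE E M q) hf,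
      normAlong_alpha_psi E M q hs f, hcg, map_mul, map_pow, hψC, map_mul, map_inv₀, mul_pow,
      inv_pow, mul_inv]
    ring
  rw [hNu]
  have key : algebraMap E (FE E M) (t c * c⁻¹) * (psiE E M s hs g * g⁻¹) ^ m
      - (cE A E M d * (psiE E M s hs g * g⁻¹)) ^ m
      = (algebraMap E (FE E M) (t c * c⁻¹) - cE A E M d ^ m) * (psiE E M s hs g * g⁻¹) ^ m := by
    ring
  rw [key]
  refine val_mul_lt VM hvd ?_
  rw [map_pow, hvG, one_pow]


/-! ### The core congruence -/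

/-- **Core.**  For `f₂ = W f₁` with norms along `α` constants times `m`-th powers:
`(ψ - 1)² f₁` is an `m`-th power modulo `w V∞`. -/
theorem core (hNR : H60.NormRedStatement A E M q w) (hSt : StableStatement A E)
    (hK : KronFrobStatement A E M q w) (hS : Setting A E M q w) (hG : A2.GoodField A E)
    {m : ℕ} (hm : 0 < m)
    (VM : ValuationSubring (FE E M)) (hVM : IsVinf A E M VM)
    (V : ValuationSubring (FE E (M * q))) (W : FE E (M * q) ≃ₐ[E] FE E (M * q))
    (hV : IsVinf A E (M * q) V) (hW : IsFricke E (M * q) W)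
    (s : AlgebraicClosure ℚ ≃ₐ[ℚ] AlgebraicClosure ℚ) (hs : StableUnder E s)
    (hF : A.IsFrobeniusAt s q)
    (f₁ f₂ : FE E (M * q)) (hf₁ : f₁ ≠ 0) (h12 : W f₁ = f₂)
    (hN₁ : NormPow (αE E M q) m f₁) (hN₂ : NormPow (αE E M q) m f₂) :
    ∃ g : FE E (M * q), V.valuation g = 1 ∧
      V.valuation (frobSub (psiE E (M * q) s hs) 1 (frobSub (psiE E (M * q) s hs) 1 f₁)
        - g ^ m) < 1 := by
  have hNq : M * q ≠ 0 := Nat.mul_ne_zero hS.M_ne_zero hS.q_prime.ne_zero
  haveI : NeZero (M * q) := ⟨hNq⟩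
  have hsD : s ∈ A.decompositionSubgroup ℚ := hF.mem_decompositionSubgroup
  have hWM := H751.isFricke_frickeE E M
  have hU : A2.H48.IsUnif V (cE A E (M * q) w) :=
    (H553.vinfBasic A E w (M * q) hNq hS.dvr hS.unif V hV).1
  have hUM : A2.H48.IsUnif VM (cE A E M w) :=
    (H553.vinfBasic A E w M hS.M_ne_zero hS.dvr hS.unif VM hVM).1
  -- valuations are preserved
  have vσM : ∀ x : FE E M, VM.valuation (actE E M (resE E s hs) x) = VM.valuation x :=
    val_actE A E M q w hSt hS M VM hVM hs hsD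
  have vψ : ∀ x : FE E (M * q), V.valuation (psiE E (M * q) s hs x) = V.valuation x :=
    val_psiE A E M q w hSt hS (M * q) V hV hs hsD
  have vWM : ∀ x : FE E M, VM.valuation (H751.frickeE E M x) = VM.valuation x :=
    val_frickeM A E M q w hS VM hVM
  -- commutation
  have hcW : ∀ x : FE E (M * q), actE E (M * q) (resE E s hs) (W x)
      = W (actE E (M * q) (resE E s hs) x) :=
    (hSt (M * q) hNq hS.dvr V W hV hW s hs hsD).1
  have hcWM : ∀ x : FE E M, actE E M (resE E s hs) (H751.frickeE E M x)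
      = H751.frickeE E M (actE E M (resE E s hs) x) :=
    (hSt M hS.M_ne_zero hS.dvr VM (H751.frickeE E M) hVM hWM s hs hsD).1
  have hψW : ∀ x : FE E (M * q), W (psiE E (M * q) s hs x) = psiE E (M * q) s hs (W x) := by
    intro x
    rw [psiE_apply, psiE_apply, hcW, hcW]
  have hL5 := H751.frickeCompat E M q (H751.frickeE E M) W hWM hW
  have hWW : ∀ x : FE E M, H751.frickeE E M (H751.frickeE E M x) = x := H751.frickeE_frickeE E M
  have hαψ : ∀ x : FE E M, αE E M q (psiE E M s hs x) = psiE E (M * q) s hs (αE E M q x) :=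
    fun x => H558.alpha_actE E M q _ x
  have hf₂ : f₂ ≠ 0 := by
    rw [← h12]
    exact (map_ne_zero W).2 hf₁
  -- the units `u₁`, `u₂`
  obtain ⟨u₁, hu₁⟩ : ∃ u : FE E (M * q), u = frobSub (psiE E (M * q) s hs) 1 f₁ := ⟨_, rfl⟩
  obtain ⟨u₂, hu₂⟩ : ∃ u : FE E (M * q), u = frobSub (psiE E (M * q) s hs) 1 f₂ := ⟨_, rfl⟩
  have hvu : ∀ f : FE E (M * q), f ≠ 0 →
      V.valuation (frobSub (psiE E (M * q) s hs) 1 f) = 1 := by
    intro f hf
    unfold frobSub
    rw [pow_one, map_mul, map_inv₀, vψ, mul_inv_cancel₀ ((Valuation.ne_zero_iff _).2 hf)]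
  have hvu₁ : V.valuation u₁ = 1 := hu₁ ▸ hvu f₁ hf₁
  have hvu₂ : V.valuation u₂ = 1 := hu₂ ▸ hvu f₂ hf₂
  have hWu : W u₁ = u₂ := by
    rw [hu₁, hu₂]
    unfold frobSub
    rw [pow_one, pow_one, map_mul, map_inv₀, hψW, h12]
  have hWu' : W u₂ = u₁ := by
    rw [← hWu, hW.2]
  -- L11
  obtain ⟨U₁, hU₁, hc₁'⟩ :=
    H378.resInf A E M q w hS VM V hVM hV u₁ ((V.valuation_le_one_iff _).1 hvu₁.le)
  obtain ⟨U₂, hU₂, hc₂'⟩ :=
    H378.resInf A E M q w hS VM V hVM hV u₂ ((V.valuation_le_one_iff _).1 hvu₂.le)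
  have hc₁ : V.valuation (u₁ - αE E M q U₁) < 1 := (H142.inW_iff hU _).1 hc₁'
  have hc₂ : V.valuation (u₂ - αE E M q U₂) < 1 := (H142.inW_iff hU _).1 hc₂'
  have hvαU₁ : V.valuation (αE E M q U₁) = 1 := val_eq_one_of_sub_lt V hvu₁ hc₁
  have hvαU₂ : V.valuation (αE E M q U₂) = 1 := val_eq_one_of_sub_lt V hvu₂ hc₂
  have hvU₁ : VM.valuation U₁ = 1 := (val_alpha_eq_one hS hVM hV U₁).1 hvαU₁
  have hvU₂ : VM.valuation U₂ = 1 := (val_alpha_eq_one hS hVM hV U₂).1 hvαU₂
  -- KRON-FROB + powers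
  have hkr : ∀ (u : FE E (M * q)) (U : FE E M), V.valuation u = 1 → U ∈ VM →
      V.valuation (u - αE E M q U) < 1 → V.valuation (αE E M q U) = 1 →
      V.valuation (u ^ q - βE E M q (actE E M (resE E s hs) U)) < 1 := by
    intro u U hvu' hUm hc hvα
    have h1 : V.valuation (βE E M q (actE E M (resE E s hs) U) - (αE E M q U) ^ q) < 1 :=
      (H142.inW_iff hU _).1 (hK hS VM V hVM hV s hs hF U hUm)
    have h2 : V.valuation (u ^ q - (αE E M q U) ^ q) < 1 :=
      val_pow_sub_pow_lt V hvu'.le hvα.le hc q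
    exact val_trans V h2 (val_symm V h1)
  have hk₁ := hkr u₁ U₁ hvu₁ hU₁ hc₁ hvαU₁
  have hk₂ := hkr u₂ U₂ hvu₂ hU₂ hc₂ hvαU₂
  -- NORM-RED in valuation form
  have hnr : ∀ (y y' : FE E (M * q)) (U U' : FE E M), V.valuation y = 1 → V.valuation y' = 1 →
      W y = y' → VM.valuation U = 1 → VM.valuation U' = 1 →
      V.valuation (y - αE E M q U) < 1 →
      V.valuation (y' ^ q - βE E M q (actE E M (resE E s hs) U')) < 1 →
      VM.valuation (S29.H395.normAlong (αE E M q) y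
        - U * actE E M (resE E s hs) (H751.frickeE E M U')) < 1 := by
    intro y y' U U' hvy hvy' hWy hvU hvU' hc hk
    refine (H142.inW_iff hUM _).1 (hNR hS VM V W hVM hV hW y
      ((V.valuation_le_one_iff _).1 hvy.le) ?_ U ((VM.valuation_le_one_iff _).1 hvU.le)
      (actE E M (resE E s hs) (H751.frickeE E M U')) ?_ ((H142.inW_iff hU _).2 hc) ?_)
    · rw [hWy]
      exact (V.valuation_le_one_iff _).1 hvy'.le
    · rw [← VM.valuation_le_one_iff, vσM, vWM]
      exact hvU'.le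
    · rw [H142.inW_comap_iff, H142.inW_iff hU, map_sub, map_pow, hWy, (hL5 _).1, ← hcWM, hWW]
      exact hk
  have hn₁ := hnr u₁ u₂ U₁ U₂ hvu₁ hvu₂ hWu hvU₁ hvU₂ hc₁ hk₂
  have hn₂ := hnr u₂ u₁ U₂ U₁ hvu₂ hvu₁ hWu' hvU₂ hvU₁ hc₂ hk₁
  -- the norms are `m`-th powers
  obtain ⟨P₁, hvP₁, hP₁⟩ := norm_unit A E M q w hSt hS hG hm VM hVM hs hsD f₁ hf₁ hN₁
  obtain ⟨P₂, hvP₂, hP₂⟩ := norm_unit A E M q w hSt hS hG hm VM hVM hs hsD f₂ hf₂ hN₂
  rw [← hu₁] at hP₁
  rw [← hu₂] at hP₂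
  obtain ⟨Z, hZ⟩ : ∃ Z : FE E M, Z = actE E M (resE E s hs) (H751.frickeE E M U₂) := ⟨_, rfl⟩
  have hvZ : VM.valuation Z = 1 := by rw [hZ, vσM, vWM, hvU₂]
  rw [← hZ] at hn₁
  have h4 : VM.valuation (U₁ * Z - P₁ ^ m) < 1 := val_trans VM (val_symm VM hn₁) hP₁
  have h5 : VM.valuation (U₂ * actE E M (resE E s hs) (H751.frickeE E M U₁) - P₂ ^ m) < 1 :=
    val_trans VM (val_symm VM hn₂) hP₂
  obtain ⟨Q₂, hQ₂⟩ : ∃ Q : FE E M, Q = actE E M (resE E s hs) (H751.frickeE E M P₂) := ⟨_, rfl⟩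
  have hvQ₂ : VM.valuation Q₂ = 1 := by rw [hQ₂, vσM, vWM, hvP₂]
  have h6 : VM.valuation (Z * psiE E M s hs U₁ - Q₂ ^ m) < 1 := by
    have e : actE E M (resE E s hs) (H751.frickeE E M
        (actE E M (resE E s hs) (H751.frickeE E M U₁))) = psiE E M s hs U₁ := by
      rw [← hcWM (H751.frickeE E M U₁), hWW, ← psiE_apply]
    have h := h5
    rw [← vWM, ← vσM, map_sub, map_sub, map_mul, map_mul, map_pow, map_pow, e, ← hZ,
      ← hQ₂] at h
    exact h
  have hZ0 : Z ≠ 0 := ((val_eq_one_iff VM).1 hvZ).2.2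
  have hU₁0 : U₁ ≠ 0 := ((val_eq_one_iff VM).1 hvU₁).2.2
  have hP₁0 : P₁ ≠ 0 := ((val_eq_one_iff VM).1 hvP₁).2.2
  have h7 : VM.valuation (psiE E M s hs U₁ * U₁⁻¹ - (Q₂ * P₁⁻¹) ^ m) < 1 := by
    have h := val_div_sub_div_lt VM h6 h4 (by rw [map_pow, hvQ₂, one_pow])
      (by rw [map_mul, hvU₁, hvZ, one_mul]) (by rw [map_pow, hvP₁, one_pow])
    have e1 : Z * psiE E M s hs U₁ * (U₁ * Z)⁻¹ = psiE E M s hs U₁ * U₁⁻¹ := by
      field_simp
    have e2 : Q₂ ^ m * (P₁ ^ m)⁻¹ = (Q₂ * P₁⁻¹) ^ m := by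
      rw [mul_pow, inv_pow]
    rwa [e1, e2] at h
  -- conclusion
  refine ⟨αE E M q (Q₂ * P₁⁻¹), ?_, ?_⟩
  · rw [val_alpha_eq_one hS hVM hV, map_mul, map_inv₀, hvQ₂, hvP₁, inv_one, one_mul]
  · rw [← hu₁]
    have h8 : V.valuation (psiE E (M * q) s hs u₁ - αE E M q (psiE E M s hs U₁)) < 1 := by
      rw [hαψ, ← map_sub, vψ]
      exact hc₁
    have h9 : V.valuation (psiE E (M * q) s hs u₁ * u₁⁻¹
        - αE E M q (psiE E M s hs U₁) * (αE E M q U₁)⁻¹) < 1 := by
      refine val_div_sub_div_lt V h8 hc₁ ?_ hvu₁ hvαU₁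
      rw [val_alpha_le hS hVM hV, val_psiE A E M q w hSt hS M VM hVM hs hsD]
      exact hvU₁.le
    have h10 : V.valuation (αE E M q (psiE E M s hs U₁) * (αE E M q U₁)⁻¹
        - αE E M q (Q₂ * P₁⁻¹) ^ m) < 1 := by
      have e : αE E M q (psiE E M s hs U₁) * (αE E M q U₁)⁻¹ - αE E M q (Q₂ * P₁⁻¹) ^ m
          = αE E M q (psiE E M s hs U₁ * U₁⁻¹ - (Q₂ * P₁⁻¹) ^ m) := by
        simp only [map_sub, map_mul, map_inv₀, map_pow]
      rw [e, val_alpha_lt hS hVM hV]
      exact h7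
    have e3 : frobSub (psiE E (M * q) s hs) 1 u₁ = psiE E (M * q) s hs u₁ * u₁⁻¹ := by
      unfold frobSub
      rw [pow_one]
    rw [e3]
    exact val_trans V h9 h10

/-! ### GLUE -/

/-- **Leaf TORIC:GLUE** (`H60.GlueStatement`, verbatim). -/
theorem glue (m : ℕ) : H60.GlueStatement A E M q w m := by
  intro hNR hSt hK hS hG hm _ V W hV hW s hs hF f hf hNα hNβ
  have hNq : M * q ≠ 0 := Nat.mul_ne_zero hS.M_ne_zero hS.q_prime.ne_zero
  haveI : NeZero (M * q) := ⟨hNq⟩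
  have hsD : s ∈ A.decompositionSubgroup ℚ := hF.mem_decompositionSubgroup
  obtain ⟨VM, hVM⟩ := H553.vinfExists A E M hS.M_ne_zero hS.dvr
  have hU : A2.H48.IsUnif V (cE A E (M * q) w) :=
    (H553.vinfBasic A E w (M * q) hNq hS.dvr hS.unif V hV).1
  have hcW : ∀ x : FE E (M * q), actE E (M * q) (resE E s hs) (W x)
      = W (actE E (M * q) (resE E s hs) x) :=
    (hSt (M * q) hNq hS.dvr V W hV hW s hs hsD).1
  have hψW : ∀ x : FE E (M * q), W (psiE E (M * q) s hs x) = psiE E (M * q) s hs (W x) := by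
    intro x
    rw [psiE_apply, psiE_apply, hcW, hcW]
  have hWfrob : ∀ x : FE E (M * q), W (frobSub (psiE E (M * q) s hs) 1 x)
      = frobSub (psiE E (M * q) s hs) 1 (W x) := by
    intro x
    unfold frobSub
    rw [pow_one, pow_one, map_mul, map_inv₀, hψW]
  have hNα' : NormPow (αE E M q) m (W f) := normPow_alpha_fricke E M q W hW hNβ
  have hWf : W f ≠ 0 := (map_ne_zero W).2 hf
  obtain ⟨g₁, hg₁, hc₁⟩ :=
    core A E M q w hNR hSt hK hS hG hm VM hVM V W hV hW s hs hF f (W f) hf rfl hNα hNα'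
  obtain ⟨g₂, hg₂, hc₂⟩ :=
    core A E M q w hNR hSt hK hS hG hm VM hVM V W hV hW s hs hF (W f) f hWf (hW.2 f) hNα' hNα
  have hg₁' := (val_eq_one_iff V).1 hg₁
  have hg₂' := (val_eq_one_iff V).1 hg₂
  constructor
  · exact ⟨g₁, hg₁'.1, hg₁'.2.1, hU.mul_inv_mem_iff.2 hc₁⟩
  · refine ⟨W g₂, ?_, ?_, ?_⟩
    · rw [ValuationSubring.mem_comap]
      show W (W g₂) ∈ V
      rw [hW.2]
      exact hg₂'.1
    · rw [ValuationSubring.mem_comap]
      show W (W g₂)⁻¹ ∈ V
      rw [map_inv₀, hW.2]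
      exact hg₂'.2.1
    · rw [ValuationSubring.mem_comap]
      show W ((frobSub (psiE E (M * q) s hs) 1 (frobSub (psiE E (M * q) s hs) 1 f)
        - W g₂ ^ m) * (cE A E (M * q) w)⁻¹) ∈ V
      have hWc : W (cE A E (M * q) w) = cE A E (M * q) w := W.commutes _
      rw [map_mul, map_inv₀, hWc, map_sub, map_pow, hW.2, hWfrob, hWfrob]
      exact hU.mul_inv_mem_iff.2 hc₂

end Level

end Fermat.Agent.S35.G.H415

end
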